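import Mathlib
import Fermat.Agent.S17.H.Global
import Fermat.Agent.S17.H.Setup.Cusp
import Fermat.Agent.S17.Abs.Sys
import Fermat.Agent.S17.Rat.Modular
import Fermat.Agent.Lib.RR.OfModularBar

/-!
# S17 / package H, seat SETUP (helper19): the fixed data `HSetup N` exists

* `P₀ = cuspPlace N` (the place of the `q`-adic order, Galois-fixed);
* `𝔸 = absSys` (seat ABS);
* `e = 20 g + 10`;
* `φ = (1, b₁, …, b_r)` where `b` is a Galois-fixed basis (seat RAT) of the Galois-stable subspace
  `{f ∈ L(e P₀) | a₀(f) = 0}` (`a₀` = constant coefficient of the `q`-expansion).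

`nonempty_hSetup N : Nonempty (HSetup N)` for every `N ≠ 0`.
-/

set_option autoImplicit false
set_option linter.style.haveILetI false
set_option synthInstance.maxHeartbeats 400000
set_option maxHeartbeats 800000

noncomputable section

open AlgebraicCurve ModularCurve Fermat.Agent.RR

namespace Fermat.Agent.S17.Setup

local notation "Qb" => AlgebraicClosure ℚ

section Generic

variable {K F : Type*} [Field K] [Field F] [Algebra K F]

theorem smul_mem_rr (g : SemilinearAut K F) {D : Divisor K F} {f : F}
    (hf : f ∈ riemannRochSpace D) : g • f ∈ riemannRochSpace (g • D) := by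
  rw [mem_riemannRochSpace_iff] at hf ⊢
  intro w
  rcases hf (g⁻¹ • w) with h0 | h1
  · left
    rw [h0, smul_zero]
  · right
    rw [SemilinearAut.divisor_smul_apply]
    have := SemilinearAut.ord_smul g (g⁻¹ • w) f
    rw [smul_inv_smul] at this
    rw [this]
    exact h1

theorem smul_mem_rr_single (g : SemilinearAut K F) {P : Place K F} (hP : g • P = P) (n : ℤ)
    {f : F} (hf : f ∈ riemannRochSpace (Finsupp.single P n)) :
    g • f ∈ riemannRochSpace (Finsupp.single P n) := by
  have h := smul_mem_rr g hf
  rwa [SemilinearAut.smul_single, hP] at h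

theorem one_mem_rr_single (P : Place K F) (n : ℕ) :
    (1 : F) ∈ riemannRochSpace (Finsupp.single P (n : ℤ)) := by
  rw [mem_riemannRochSpace_iff]
  intro v
  right
  rw [Place.ord_one]
  have h0 : (0 : ℤ) ≤ (Finsupp.single P (n : ℤ) : Divisor K F) v := by
    classical
    rw [Finsupp.single_apply]
    split_ifs
    · exact Int.natCast_nonneg n
    · exact le_rfl
  omega

/-- a basis of `U` from a basis of the kernel of a functional `lam` on `U` with
`lam x₀ = 1`. -/
theorem cons_basis (U : Submodule K F) (lam : F →ₗ[K] K) {x₀ : F} (hx₀ : x₀ ∈ U)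
    (hlam : lam x₀ = 1) {n : ℕ} (b : Fin n → F) (hb : LinearIndependent K b)
    (hspan : Submodule.span K (Set.range b) = U ⊓ LinearMap.ker lam) :
    LinearIndependent K (Fin.cons x₀ b : Fin (n + 1) → F) ∧
      Submodule.span K (Set.range (Fin.cons x₀ b : Fin (n + 1) → F)) = U := by
  constructor
  · rw [linearIndependent_finCons]
    refine ⟨hb, ?_⟩
    rw [hspan]
    intro h2
    have h3 := (Submodule.mem_inf.mp h2).2
    rw [LinearMap.mem_ker, hlam] at h3
    exact one_ne_zero h3
  · rw [Fin.range_cons, Submodule.span_insert, hspan]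
    apply le_antisymm
    · refine sup_le ?_ inf_le_left
      rw [Submodule.span_singleton_le_iff_mem]
      exact hx₀
    · intro f hf
      have h1 : f - lam f • x₀ ∈ U ⊓ LinearMap.ker lam := by
        rw [Submodule.mem_inf]
        refine ⟨U.sub_mem hf (U.smul_mem _ hx₀), ?_⟩
        rw [LinearMap.mem_ker, map_sub, map_smul, hlam, smul_eq_mul, mul_one, sub_self]
      have h2 : f = lam f • x₀ + (f - lam f • x₀) := by abel
      rw [h2]
      exact Submodule.add_mem _
        (Submodule.mem_sup_left (Submodule.smul_mem _ _ (Submodule.mem_span_singleton_self x₀)))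
        (Submodule.mem_sup_right h1)

end Generic

section Modular

variable (N : ℕ)

/-- the constant coefficient of the `q`-expansion. -/
def coeff0 : FN N →ₗ[Qb] Qb where
  toFun f := (f : LaurentSeries Qb).coeff 0
  map_add' f g := rfl
  map_smul' c f := by
    show ((c • f : FN N) : LaurentSeries Qb).coeff 0 = c • (f : LaurentSeries Qb).coeff 0
    rw [IntermediateField.coe_smul, Algebra.smul_def, algebraMap_laurentSeries_eq_single,
      HahnSeries.coeff_single_zero_mul, smul_eq_mul]

theorem coeff0_apply (f : FN N) : coeff0 N f = (f : LaurentSeries Qb).coeff 0 := rfl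

theorem coeff0_one : coeff0 N 1 = 1 := by
  rw [coeff0_apply]
  show (1 : LaurentSeries Qb).coeff 0 = 1
  rw [HahnSeries.coeff_one, if_pos rfl]

theorem coeff0_galFun (σ : GQ) (f : FN N) : coeff0 N (Pts.galFun N σ f) = σ (coeff0 N f) := by
  rw [coeff0_apply, Pts.coe_galFun, coeffMap_coeff]
  rfl

variable [NeZero N]

/-- **SETUP**: the fixed data of package H exist. -/
theorem exists_hSetup : ∃ S : HSetup N, S.𝔸 = absSys ∧ S.P₀ = cuspPlace N ∧
    S.e = 20 * genusFF Qbar (FN N) + 10 := by
  have hRR : IsRRField Qb (FN N) := Fermat.Agent.RRMod.isRRField_bar N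
  set e : ℕ := 20 * genusFF Qbar (FN N) + 10 with he
  set U : Submodule Qb (FN N) := secSpace (cuspPlace N) e 1 with hU
  have hUdef : U = riemannRochSpace (Finsupp.single (cuspPlace N) ((1 * e : ℕ) : ℤ)) := rfl
  haveI hfin : FiniteDimensional Qb U := by
    rw [hUdef]
    exact finite_riemannRochSpace hRR _
  have hfix : ∀ σ : GQ, arithmeticGalois (modularFunctionFieldFull N) σ • cuspPlace N
      = cuspPlace N := fun σ => galPlace_cuspPlace N σ
  have hUst : ∀ σ : GQ, ∀ f ∈ U, arithmeticGalois (modularFunctionFieldFull N) σ • f ∈ U := by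
    intro σ f hf
    rw [hUdef] at hf ⊢
    exact smul_mem_rr_single _ (hfix σ) _ hf
  have hU'st : ∀ σ : GQ, ∀ f ∈ U ⊓ LinearMap.ker (coeff0 N),
      arithmeticGalois (modularFunctionFieldFull N) σ • f ∈ U ⊓ LinearMap.ker (coeff0 N) := by
    intro σ f hf
    rw [Submodule.mem_inf] at hf ⊢
    obtain ⟨hf1, hf2⟩ := hf
    refine ⟨hUst σ f hf1, ?_⟩
    rw [LinearMap.mem_ker] at hf2 ⊢
    have := coeff0_galFun N σ f
    rw [hf2, map_zero] at this
    exact this
  haveI hfin' : FiniteDimensional Qb ↥(U ⊓ LinearMap.ker (coeff0 N)) :=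
    Submodule.finiteDimensional_inf_left U _
  obtain ⟨n, b, hb, hspan, hbfix⟩ :=
    Fermat.Agent.S17.RatDesc.exists_fixed_family' N (U ⊓ LinearMap.ker (coeff0 N)) hU'st
  have h1U : (1 : FN N) ∈ U := by
    rw [hUdef]
    exact one_mem_rr_single _ _
  obtain ⟨hli, hsp⟩ := cons_basis U (coeff0 N) h1U (coeff0_one N) b hb hspan
  refine ⟨{ 𝔸 := absSys
            P₀ := cuspPlace N
            P₀_fixed := galPlace_cuspPlace N
            e := e
            e_large := le_rfl
            r := n
            φ := Fin.cons 1 b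
            isEmbBasis := ⟨hli, hsp, rfl⟩
            φ_fixed := ?_ }, rfl, rfl, rfl⟩
  intro σ a
  refine Fin.cases ?_ (fun i => ?_) a
  · show Pts.galFun N σ 1 = 1
    exact smul_one _
  · show Pts.galFun N σ (b i) = b i
    exact hbfix i σ

theorem nonempty_hSetup : Nonempty (HSetup N) := by
  obtain ⟨S, -⟩ := exists_hSetup N
  exact ⟨S⟩

/-- a chosen setup, with base point the cusp `∞`. -/
def hSetup : HSetup N := (exists_hSetup N).choose

theorem hSetup_P₀ : (hSetup N).P₀ = cuspPlace N := (exists_hSetup N).choose_spec.2.1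

theorem hSetup_𝔸 : (hSetup N).𝔸 = absSys := (exists_hSetup N).choose_spec.1

theorem hSetup_e : (hSetup N).e = 20 * genusFF Qbar (FN N) + 10 :=
  (exists_hSetup N).choose_spec.2.2

end Modular

end Fermat.Agent.S17.Setup
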